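/-
helper34: P-DS / P-ES1, row 666 ES1-ES-AL, part 1: the analytic core.

Generators of the Hecke field `F1 M · V_p (F1 M)`: `j(q^d)`, `v_a`, `j(q^(dp))`, `v_a(q^p)`.
Polynomial relations between them (over `ℚ`, then over any field `L ⊇ ℚ`) are stable — in both
directions — under the Atkin–Lehner substitution
`j(q^d) ↦ j(q^(dp))`, `v_a ↦ v_a(q^p)`, `j(q^(dp)) ↦ j(q^d)`, `v_a(q^p) ↦ v_(p a)`,
which is composition with `τ ↦ γ' (p τ)`, `γ' = [[1, t], [M, p w]]`, `p w - t M = 1`.
-/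
import Fermat.Agent.H80.ES1.DiamondFinal
import Fermat.Agent.H41.AtkinLehner
import Fermat.Agent.H16.ES1ESInterfaces

set_option autoImplicit false
set_option linter.unusedSectionVars false

noncomputable section

open UpperHalfPlane ModularCurve CongruenceSubgroup
open scoped MatrixGroups

namespace Fermat.Agent.H34.ES1AL

open Fermat.Agent.H29.ES1 Fermat.Agent.H44 Fermat.Agent.H23 Fermat.Agent.H80.ES1
open Fermat.Agent.H41 Fermat.Agent.H16

variable (M : ℕ) [NeZero M] (p : ℕ) [NeZero p]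

/-- The index type of the generators of the Hecke field. -/
abbrev HIdx : Type := GenIdx M ⊕ GenIdx M

/-- The generators of the Hecke field as Laurent series over `ℚ`. -/
def hgensQ : HIdx M → LaurentSeries ℚ
  | Sum.inl i => gensQ M i
  | Sum.inr i => qExpand ℚ p (gensQ M i)

/-- The holomorphic functions representing the generators. -/
def hgensFun : HIdx M → (ℍ → ℂ)
  | Sum.inl i => gensFun M i
  | Sum.inr i => gensFun M i ∘ scaleH p

/-- The Atkin–Lehner substitution on the indices. -/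
def hPerm (u : (ZMod M)ˣ) : HIdx M → HIdx M
  | Sum.inl i => Sum.inr i
  | Sum.inr i => Sum.inl (genPerm M u i)

@[simp] theorem hPerm_inl (u : (ZMod M)ˣ) (i : GenIdx M) :
    hPerm M u (Sum.inl i) = Sum.inr i := rfl

@[simp] theorem hPerm_inr (u : (ZMod M)ˣ) (i : GenIdx M) :
    hPerm M u (Sum.inr i) = Sum.inl (genPerm M u i) := rfl

theorem laurentRel_hgens (hV : VFunStatement) (hM : 3 ≤ M) (k : HIdx M) :
    LaurentRel (hgensFun M p k) (coeffEmb ℂ (hgensQ M p k)) := by
  cases k with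
  | inl i => exact laurentRel_gens M hV hM i
  | inr i =>
    show LaurentRel (gensFun M i ∘ scaleH p) (coeffEmb ℂ (qExpand ℚ p (gensQ M i)))
    rw [es1_coeffEmb_qExpand]
    exact (laurentRel_gens M hV hM i).scale p

/-! ### The matrices -/

theorem exists_bezout_al {p : ℕ} (hp : p.Prime) (hpM : ¬ p ∣ M) :
    ∃ w t : ℤ, (p : ℤ) * w - t * (M : ℤ) = 1 := by
  have hcop : Nat.Coprime p M := (Nat.Prime.coprime_iff_not_dvd hp).mpr hpM
  obtain ⟨a, b, hab⟩ := Nat.isCoprime_iff_coprime.mpr hcop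
  exact ⟨a, -b, by linear_combination hab⟩

/-- The map `τ ↦ γ' (p τ)`, `γ' = [[1, t], [M, p w]]`. -/
def wMap (w t : ℤ) (h : (p : ℤ) * w - t * (M : ℤ) = 1) (τ : ℍ) : ℍ :=
  mkSL 1 t M (p * w) (by linear_combination h) • scaleH p τ

theorem mkSL_mem_Gamma0 (a b d : ℤ) (h : a * d - b * (M : ℤ) = 1) :
    mkSL a b M d h ∈ Gamma0 M := by
  rw [Gamma0_mem]
  show (((M : ℤ)) : ZMod M) = 0
  simp

theorem mkSL_upperLeft (a b c d : ℤ) (h : a * d - b * c = 1) :
    ((mkSL a b c d h : SL(2, ℤ)) : Matrix (Fin 2) (Fin 2) ℤ) 0 0 = a := rfl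

/-- `p · γ' (p τ) = γ'' τ`, `γ'' = [[p, t], [M, w]]`. -/
theorem scaleH_wMap (w t : ℤ) (h : (p : ℤ) * w - t * (M : ℤ) = 1) (τ : ℍ) :
    scaleH p (wMap M p w t h τ) = mkSL p t M w h • τ := by
  apply UpperHalfPlane.ext
  rw [H41.coe_scaleH, wMap, coe_mkSL_smul, coe_mkSL_smul, H41.coe_scaleH]
  have hM : (0 : ℝ) < M := by exact_mod_cast Nat.pos_of_ne_zero (NeZero.ne M)
  have hp0 : (p : ℂ) ≠ 0 := by exact_mod_cast NeZero.ne p
  have h2 := mul_add_ne_zero_of_pos hM (w : ℝ) τ
  push_cast at h2 ⊢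
  have h1 : (M : ℂ) * ((p : ℂ) * (τ : ℂ)) + (p : ℂ) * (w : ℂ) ≠ 0 := by
    have : (M : ℂ) * ((p : ℂ) * (τ : ℂ)) + (p : ℂ) * (w : ℂ)
        = (p : ℂ) * ((M : ℂ) * (τ : ℂ) + (w : ℂ)) := by ring
    rw [this]
    exact mul_ne_zero hp0 h2
  rw [mul_div_assoc', div_eq_div_iff h1 h2]
  ring

theorem wMap_surjective (w t : ℤ) (h : (p : ℤ) * w - t * (M : ℤ) = 1) :
    Function.Surjective (wMap M p w t h) := by
  intro z
  set y : ℍ := (mkSL 1 t M (p * w) (by linear_combination h))⁻¹ • z with hy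
  have hp : (0 : ℝ) < p := by exact_mod_cast Nat.pos_of_ne_zero (NeZero.ne p)
  have hp0 : (p : ℂ) ≠ 0 := by exact_mod_cast NeZero.ne p
  have him : 0 < ((y : ℂ) / (p : ℂ)).im := by
    have : ((y : ℂ) / (p : ℂ)).im = y.im / p := by
      rw [show ((p : ℂ)) = ((p : ℝ) : ℂ) by push_cast; rfl, Complex.div_ofReal_im]
      rfl
    rw [this]
    exact div_pos y.im_pos hp
  refine ⟨⟨(y : ℂ) / p, him⟩, ?_⟩
  have h1 : scaleH p ⟨(y : ℂ) / p, him⟩ = y := by
    apply UpperHalfPlane.ext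
    rw [H41.coe_scaleH]
    change (p : ℂ) * ((y : ℂ) / p) = y
    field_simp
  rw [wMap, h1, hy, smul_inv_smul]

/-- Invariance of the generators of `F1 M` under `Γ₁(M)`-like elements. -/
theorem gensFun_smul (hV : VFunStatement) (hM : 3 ≤ M) (γ : SL(2, ℤ)) (hγ : γ ∈ Gamma0 M)
    (u : (ZMod M)ˣ)
    (hu : (((γ : Matrix (Fin 2) (Fin 2) ℤ) 0 0 : ℤ) : ZMod M) = (u : ZMod M))
    (i : GenIdx M) (z : ℍ) :
    gensFun M i (γ • z) = gensFun M (genPerm M u i) z := by
  cases i with
  | inl d =>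
    have := neZero_of_dvd_level M d.2
    exact Fermat.Agent.H82.sep_jfun_scaleH_smul M d.1 d.2 γ hγ z
  | inr a =>
    show VFun M (a : ZMod M) (γ • z) = VFun M ((u * a : (ZMod M)ˣ) : ZMod M) z
    rw [(hV M (a : ZMod M) (unit_ne_zero M hM a)).2.2.1 γ hγ z, hu, Units.val_mul]

/-- **The analytic identity**: composition with `wMap` is the Atkin–Lehner substitution. -/
theorem hgensFun_wMap (hV : VFunStatement) (hM : 3 ≤ M) {p : ℕ} [NeZero p] (hp : p.Prime)
    (hpM : ¬ p ∣ M) (w t : ℤ) (h : (p : ℤ) * w - t * (M : ℤ) = 1) (k : HIdx M) (τ : ℍ) :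
    hgensFun M p k (wMap M p w t h τ) = hgensFun M p (hPerm M (es1Unit M hp hpM) k) τ := by
  cases k with
  | inl i =>
    show gensFun M i (mkSL 1 t M (p * w) (by linear_combination h) • scaleH p τ)
      = gensFun M i (scaleH p τ)
    have h1 := gensFun_smul M hV hM (mkSL 1 t M (p * w) (by linear_combination h))
      (mkSL_mem_Gamma0 M 1 t (p * w) (by linear_combination h)) 1
      (by rw [mkSL_upperLeft]; simp) i (scaleH p τ)
    rw [h1, genPerm_one]
    rfl
  | inr i =>
    show gensFun M i (scaleH p (wMap M p w t h τ))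
      = gensFun M (genPerm M (es1Unit M hp hpM) i) τ
    rw [scaleH_wMap]
    exact gensFun_smul M hV hM (mkSL p t M w h) (mkSL_mem_Gamma0 M p t w h)
      (es1Unit M hp hpM) (by rw [mkSL_upperLeft, es1Unit, ZMod.coe_unitOfCoprime]; simp) i τ

/-! ### Polynomial relations -/

/-- A polynomial relation over `ℚ` between Laurent series holds iff it holds between the
functions representing them. -/
theorem aeval_eq_zero_iff_fun {ι : Type*} (f : ι → (ℍ → ℂ)) (x : ι → LaurentSeries ℚ)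
    (hx : ∀ i, LaurentRel (f i) (coeffEmb ℂ (x i))) (P : MvPolynomial ι ℚ) :
    MvPolynomial.aeval x P = 0 ↔ MvPolynomial.aeval f P = 0 := by
  have hrel := laurentRel_aeval f (fun i => coeffEmb ℂ (x i)) hx P
  have hC : MvPolynomial.aeval (fun i => coeffEmb ℂ (x i)) P
      = coeffEmb ℂ (MvPolynomial.aeval x P) := by
    have := MvPolynomial.comp_aeval (R := ℚ) (f := x) (coeffEmbA ℂ)
    have h2 := congrArg (fun φ => φ P) this
    simp only [AlgHom.comp_apply, coeffEmbA_apply] at h2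
    exact h2.symm
  constructor
  · intro h
    rw [hC, h, map_zero] at hrel
    exact hrel.unique_left laurentRel_zero
  · intro h
    rw [h] at hrel
    have h3 := hrel.unique_right laurentRel_zero
    rw [hC] at h3
    apply coeffEmb_injective ℂ
    rw [h3, map_zero]

/-- **Analytic core over `ℚ`.** -/
theorem core_rat_iff (hV : VFunStatement) (hM : 3 ≤ M) {p : ℕ} [NeZero p] (hp : p.Prime)
    (hpM : ¬ p ∣ M) (P : MvPolynomial (HIdx M) ℚ) :
    MvPolynomial.aeval (hgensQ M p ∘ hPerm M (es1Unit M hp hpM)) P = 0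
      ↔ MvPolynomial.aeval (hgensQ M p) P = 0 := by
  obtain ⟨w, t, h⟩ := exists_bezout_al M hp hpM
  rw [aeval_eq_zero_iff_fun (hgensFun M p) (hgensQ M p) (laurentRel_hgens M p hV hM) P,
    aeval_eq_zero_iff_fun (hgensFun M p ∘ hPerm M (es1Unit M hp hpM))
      (hgensQ M p ∘ hPerm M (es1Unit M hp hpM))
      (fun k => laurentRel_hgens M p hV hM (hPerm M (es1Unit M hp hpM) k)) P]
  have hcomp : MvPolynomial.aeval (hgensFun M p ∘ hPerm M (es1Unit M hp hpM)) P
      = (MvPolynomial.aeval (hgensFun M p) P) ∘ wMap M p w t h := by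
    have := MvPolynomial.comp_aeval (R := ℚ) (f := hgensFun M p) (precompHom (wMap M p w t h))
    have h2 := congrArg (fun φ => φ P) this
    simp only [AlgHom.comp_apply, precompHom_apply] at h2
    rw [h2]
    congr 2
    funext k τ
    exact (hgensFun_wMap M hV hM hp hpM w t h k τ).symm
  rw [hcomp]
  constructor
  · intro h0
    funext z
    obtain ⟨τ, rfl⟩ := wMap_surjective M p w t h z
    exact congrFun h0 τ
  · intro h0
    rw [h0]
    rfl

/-- Transfer of implications between polynomial relations from `ℚ` to `L`. -/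
theorem field_of_rat (L : Type) [Field L] [Algebra ℚ L] {ι : Type*}
    (x y : ι → LaurentSeries ℚ)
    (hxy : ∀ Q : MvPolynomial ι ℚ, MvPolynomial.aeval x Q = 0 → MvPolynomial.aeval y Q = 0)
    (P : MvPolynomial ι L) (hP : MvPolynomial.aeval (fun i => coeffEmb L (x i)) P = 0) :
    MvPolynomial.aeval (fun i => coeffEmb L (y i)) P = 0 := by
  let b := Module.Basis.ofVectorSpace ℚ L
  ext n
  rw [HahnSeries.coeff_zero]
  apply b.repr.injective
  rw [map_zero]
  ext k
  rw [Finsupp.zero_apply]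
  obtain ⟨Q, hQ⟩ := exists_coord_poly L (b.coord k) P
  have hQ0 : MvPolynomial.aeval x Q = 0 := by
    ext n'
    rw [← hQ x n', hP, HahnSeries.coeff_zero, HahnSeries.coeff_zero, map_zero]
  have hQ1 := hxy Q hQ0
  have := hQ y n
  rw [hQ1, HahnSeries.coeff_zero] at this
  exact this

/-- The generators of the Hecke field over `L`. -/
def hgensL (L : Type) [Field L] [Algebra ℚ L] : HIdx M → LaurentSeries L :=
  fun k => coeffEmb L (hgensQ M p k)

/-- **Core over `L`.** -/
theorem core_field_iff (L : Type) [Field L] [Algebra ℚ L] (hV : VFunStatement) (hM : 3 ≤ M)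
    {p : ℕ} [NeZero p] (hp : p.Prime) (hpM : ¬ p ∣ M) (P : MvPolynomial (HIdx M) L) :
    MvPolynomial.aeval (hgensL M p L ∘ hPerm M (es1Unit M hp hpM)) P = 0
      ↔ MvPolynomial.aeval (hgensL M p L) P = 0 := by
  constructor
  · exact field_of_rat L (hgensQ M p ∘ hPerm M (es1Unit M hp hpM)) (hgensQ M p)
      (fun Q hQ => (core_rat_iff M hV hM hp hpM Q).mp hQ) P
  · exact field_of_rat L (hgensQ M p) (hgensQ M p ∘ hPerm M (es1Unit M hp hpM))
      (fun Q hQ => (core_rat_iff M hV hM hp hpM Q).mpr hQ) P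

end Fermat.Agent.H34.ES1AL

end
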