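/-
helper34: P-DS / P-ES1, row 666 ES1-ES-AL, part 2: the Atkin–Lehner homomorphism of the field
generated by the generators of the Hecke field (construction from the stability of the
polynomial relations).
-/
import Fermat.Agent.H34.ES1AL.Core

set_option autoImplicit false
set_option linter.unusedSectionVars false

noncomputable section

open UpperHalfPlane ModularCurve CongruenceSubgroup IntermediateField
open scoped MatrixGroups IntermediateField.algebraAdjoinAdjoin

namespace Fermat.Agent.H34.ES1AL

open Fermat.Agent.H29.ES1 Fermat.Agent.H80.ES1 Fermat.Agent.H16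

variable (L : Type) [Field L] [Algebra ℚ L] (M : ℕ) [NeZero M] (p : ℕ) [NeZero p]

/-- The set of generators of the Hecke field over `L`. -/
abbrev hgenSet : Set (LaurentSeries L) := Set.range (hgensL M p L)

/-- Evaluation of polynomials at the generators, onto the algebra they generate. -/
def hevalGen : MvPolynomial (HIdx M) L →ₐ[L] Algebra.adjoin L (hgenSet L M p) :=
  (MvPolynomial.aeval (hgensL M p L)).codRestrict (Algebra.adjoin L (hgenSet L M p))
    (fun P => by
      rw [Algebra.adjoin_range_eq_range_aeval]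
      exact ⟨P, rfl⟩)

theorem coe_hevalGen (P : MvPolynomial (HIdx M) L) :
    ((hevalGen L M p P : Algebra.adjoin L (hgenSet L M p)) : LaurentSeries L)
      = MvPolynomial.aeval (hgensL M p L) P := rfl

theorem hevalGen_surjective : Function.Surjective (hevalGen L M p) := by
  rintro ⟨a, ha⟩
  have ha' := ha
  rw [Algebra.adjoin_range_eq_range_aeval] at ha'
  obtain ⟨P, hP⟩ := ha'
  exact ⟨P, Subtype.ext hP⟩

theorem hevalGen_eq_zero_iff (P : MvPolynomial (HIdx M) L) :
    hevalGen L M p P = 0 ↔ MvPolynomial.aeval (hgensL M p L) P = 0 :=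
  ⟨fun h => by
    have := congrArg Subtype.val h
    exact this, fun h => Subtype.ext h⟩

/-- The field generated by the generators. -/
abbrev hgenField : IntermediateField L (LaurentSeries L) :=
  IntermediateField.adjoin L (hgenSet L M p)

/-- A generator as an element of the field generated by the generators. -/
def hgenK (k : HIdx M) : hgenField L M p :=
  ⟨hgensL M p L k, IntermediateField.subset_adjoin _ _ ⟨k, rfl⟩⟩

/-- A generator as an element of the algebra generated by the generators. -/
def hgenA (k : HIdx M) : Algebra.adjoin L (hgenSet L M p) :=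
  ⟨hgensL M p L k, Algebra.subset_adjoin ⟨k, rfl⟩⟩

theorem hevalGen_X (k : HIdx M) : hevalGen L M p (MvPolynomial.X k) = hgenA L M p k := by
  apply Subtype.ext
  rw [coe_hevalGen, MvPolynomial.aeval_X]
  rfl

/-- Evaluation of polynomials at the permuted generators, into the field. -/
def hevalPerm (u : (ZMod M)ˣ) : MvPolynomial (HIdx M) L →ₐ[L] hgenField L M p :=
  MvPolynomial.aeval (fun k => hgenK L M p (hPerm M u k))

theorem coe_hevalPerm (u : (ZMod M)ˣ) (P : MvPolynomial (HIdx M) L) :
    ((hevalPerm L M p u P : hgenField L M p) : LaurentSeries L)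
      = MvPolynomial.aeval (hgensL M p L ∘ hPerm M u) P := by
  have := MvPolynomial.comp_aeval (R := L) (f := fun k => hgenK L M p (hPerm M u k))
    (hgenField L M p).val
  have h2 := congrArg (fun φ => φ P) this
  simp only [AlgHom.comp_apply] at h2
  exact h2

theorem hevalPerm_eq_zero_iff (u : (ZMod M)ˣ) (P : MvPolynomial (HIdx M) L) :
    hevalPerm L M p u P = 0 ↔ MvPolynomial.aeval (hgensL M p L ∘ hPerm M u) P = 0 := by
  rw [← coe_hevalPerm]
  constructor
  · intro h
    rw [h]
    rfl
  · intro h
    exact Subtype.ext h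

section construction

variable {p}

theorem hevalPerm_ker (hV : VFunStatement) (hM : 3 ≤ M) (hp : p.Prime) (hpM : ¬ p ∣ M)
    (P : MvPolynomial (HIdx M) L) (hP : P ∈ RingHom.ker (hevalGen L M p)) :
    hevalPerm L M p (es1Unit M hp hpM) P = 0 := by
  rw [RingHom.mem_ker, hevalGen_eq_zero_iff] at hP
  rw [hevalPerm_eq_zero_iff]
  exact (core_field_iff M L hV hM hp hpM P).mpr hP

/-- The Atkin–Lehner homomorphism on the algebra generated by the generators. -/
def alAlgHom (hV : VFunStatement) (hM : 3 ≤ M) (hp : p.Prime) (hpM : ¬ p ∣ M) :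
    Algebra.adjoin L (hgenSet L M p) →ₐ[L] hgenField L M p :=
  (Ideal.Quotient.liftₐ (RingHom.ker (hevalGen L M p)) (hevalPerm L M p (es1Unit M hp hpM))
    (hevalPerm_ker L M hV hM hp hpM)).comp
    (Ideal.quotientKerAlgEquivOfSurjective (hevalGen_surjective L M p)).symm.toAlgHom

theorem alAlgHom_hevalGen (hV : VFunStatement) (hM : 3 ≤ M) (hp : p.Prime) (hpM : ¬ p ∣ M)
    (P : MvPolynomial (HIdx M) L) :
    alAlgHom L M hV hM hp hpM (hevalGen L M p P) = hevalPerm L M p (es1Unit M hp hpM) P := by
  have h1 : (Ideal.quotientKerAlgEquivOfSurjective (hevalGen_surjective L M p)).symm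
      (hevalGen L M p P) = Ideal.Quotient.mk (RingHom.ker (hevalGen L M p)) P := by
    rw [AlgEquiv.symm_apply_eq]
    rfl
  show Ideal.Quotient.liftₐ (RingHom.ker (hevalGen L M p)) (hevalPerm L M p (es1Unit M hp hpM))
    (hevalPerm_ker L M hV hM hp hpM)
      ((Ideal.quotientKerAlgEquivOfSurjective (hevalGen_surjective L M p)).symm
        (hevalGen L M p P)) = _
  rw [h1]
  rfl

theorem alAlgHom_injective (hV : VFunStatement) (hM : 3 ≤ M) (hp : p.Prime) (hpM : ¬ p ∣ M) :
    Function.Injective (alAlgHom L M hV hM hp hpM) := by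
  rw [injective_iff_map_eq_zero]
  intro a ha
  obtain ⟨P, rfl⟩ := hevalGen_surjective L M p a
  rw [alAlgHom_hevalGen, hevalPerm_eq_zero_iff] at ha
  rw [hevalGen_eq_zero_iff]
  exact (core_field_iff M L hV hM hp hpM P).mp ha

theorem alAlgHom_hgenA (hV : VFunStatement) (hM : 3 ≤ M) (hp : p.Prime) (hpM : ¬ p ∣ M)
    (k : HIdx M) :
    alAlgHom L M hV hM hp hpM (hgenA L M p k) = hgenK L M p (hPerm M (es1Unit M hp hpM) k) := by
  rw [← hevalGen_X, alAlgHom_hevalGen, hevalPerm, MvPolynomial.aeval_X]

/-- **The Atkin–Lehner homomorphism** of the field generated by the generators. -/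
def alFieldHom (hV : VFunStatement) (hM : 3 ≤ M) (hp : p.Prime) (hpM : ¬ p ∣ M) :
    hgenField L M p →ₐ[L] hgenField L M p :=
  IsFractionRing.liftAlgHom (alAlgHom_injective L M hV hM hp hpM)

theorem alFieldHom_hgenK (hV : VFunStatement) (hM : 3 ≤ M) (hp : p.Prime) (hpM : ¬ p ∣ M)
    (k : HIdx M) :
    alFieldHom L M hV hM hp hpM (hgenK L M p k)
      = hgenK L M p (hPerm M (es1Unit M hp hpM) k) := by
  have h1 : hgenK L M p k
      = algebraMap (Algebra.adjoin L (hgenSet L M p)) (hgenField L M p) (hgenA L M p k) := rfl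
  rw [h1, alFieldHom, IsFractionRing.liftAlgHom_apply, IsFractionRing.lift_algebraMap]
  exact alAlgHom_hgenA L M hV hM hp hpM k

end construction

end Fermat.Agent.H34.ES1AL

end
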