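/-
helper34: P-DS / P-ES1, row 666 ES1-ES-AL, part 3: the Atkin–Lehner homomorphism of the Hecke
field of `X₁(M)` at `p ∤ M`:

`theorem atkinLehner1 (hV : VFunStatement) (hD : DiamondExistsStatement) : AtkinLehner1Statement`.
-/
import Fermat.Agent.H34.ES1AL.Alg

set_option autoImplicit false
set_option linter.unusedSectionVars false

noncomputable section

open UpperHalfPlane ModularCurve CongruenceSubgroup IntermediateField
open scoped MatrixGroups

namespace Fermat.Agent.H34.ES1AL

open Fermat.Agent.H29.ES1 Fermat.Agent.H80.ES1 Fermat.Agent.H16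

variable (L : Type) [Field L] [Algebra ℚ L] (M : ℕ) [NeZero M] (p : ℕ) [NeZero p]

/-! ### The Hecke field is generated by the generators -/

theorem hgensQ_mem_heckeField (k : HIdx M) : hgensQ M p k ∈ heckeField (F1 M) p := by
  cases k with
  | inl i => exact le_heckeField (F1 M) p (gensQ_mem_F1 M i)
  | inr i => exact qExpand_mem_heckeField (F1 M) p (gensQ_mem_F1 M i)

theorem qExpand_algebraMap_rat (c : ℚ) :
    qExpand ℚ p (algebraMap ℚ (LaurentSeries ℚ) c) = algebraMap ℚ (LaurentSeries ℚ) c := by
  rw [algebraMap_laurentSeries_eq_single, qExpand_single, mul_zero]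

theorem coeffEmb_mem_hgenField_inl {x : LaurentSeries ℚ} (hx : x ∈ F1 M) :
    coeffEmb L x ∈ hgenField L M p := by
  rw [F1] at hx
  induction hx using IntermediateField.adjoin_induction with
  | mem x hx =>
    rw [← range_gensQ] at hx
    obtain ⟨i, rfl⟩ := hx
    exact IntermediateField.subset_adjoin _ _ ⟨Sum.inl i, rfl⟩
  | algebraMap c =>
    rw [coeffEmb_algebraMap_rat]
    exact IntermediateField.algebraMap_mem _ _
  | add x y _ _ hx hy => rw [map_add]; exact add_mem hx hy
  | inv x _ hx => rw [map_inv₀]; exact inv_mem hx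
  | mul x y _ _ hx hy => rw [map_mul]; exact mul_mem hx hy

theorem coeffEmb_mem_hgenField_inr {x : LaurentSeries ℚ} (hx : x ∈ F1 M) :
    coeffEmb L (qExpand ℚ p x) ∈ hgenField L M p := by
  rw [F1] at hx
  induction hx using IntermediateField.adjoin_induction with
  | mem x hx =>
    rw [← range_gensQ] at hx
    obtain ⟨i, rfl⟩ := hx
    exact IntermediateField.subset_adjoin _ _ ⟨Sum.inr i, rfl⟩
  | algebraMap c =>
    rw [qExpand_algebraMap_rat, coeffEmb_algebraMap_rat]
    exact IntermediateField.algebraMap_mem _ _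
  | add x y _ _ hx hy => rw [map_add, map_add]; exact add_mem hx hy
  | inv x _ hx => rw [map_inv₀, map_inv₀]; exact inv_mem hx
  | mul x y _ _ hx hy => rw [map_mul, map_mul]; exact mul_mem hx hy

theorem coeffEmb_mem_hgenField {x : LaurentSeries ℚ} (hx : x ∈ heckeField (F1 M) p) :
    coeffEmb L x ∈ hgenField L M p := by
  rw [heckeField] at hx
  induction hx using IntermediateField.adjoin_induction with
  | mem x hx =>
    rcases hx with hx | ⟨y, hy, rfl⟩
    · exact coeffEmb_mem_hgenField_inl L M p hx
    · exact coeffEmb_mem_hgenField_inr L M p hy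
  | algebraMap c =>
    rw [coeffEmb_algebraMap_rat]
    exact IntermediateField.algebraMap_mem _ _
  | add x y _ _ hx hy => rw [map_add]; exact add_mem hx hy
  | inv x _ hx => rw [map_inv₀]; exact inv_mem hx
  | mul x y _ _ hx hy => rw [map_mul]; exact mul_mem hx hy

theorem laurentBaseChange_heckeField_eq :
    laurentBaseChange L (heckeField (F1 M) p) = hgenField L M p := by
  apply le_antisymm
  · rw [laurentBaseChange, IntermediateField.adjoin_le_iff]
    rintro _ ⟨x, hx, rfl⟩
    exact coeffEmb_mem_hgenField L M p hx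
  · rw [hgenField, IntermediateField.adjoin_le_iff]
    rintro _ ⟨k, rfl⟩
    exact coeffEmb_mem_laurentBaseChange L (hgensQ_mem_heckeField M p k)

/-- A generator as an element of `L · (F1 M · V_p (F1 M))`. -/
def hgenBC (k : HIdx M) : laurentBaseChange L (heckeField (F1 M) p) :=
  ⟨hgensL M p L k, coeffEmb_mem_laurentBaseChange L (hgensQ_mem_heckeField M p k)⟩

/-! ### The Atkin–Lehner homomorphism -/

variable {p}

/-- **The Atkin–Lehner homomorphism** of `L · (F1 M · V_p (F1 M))`. -/
def alHom (hV : VFunStatement) (hM : 3 ≤ M) (hp : p.Prime) (hpM : ¬ p ∣ M) :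
    laurentBaseChange L (heckeField (F1 M) p) →ₐ[L] laurentBaseChange L (heckeField (F1 M) p) :=
  ((IntermediateField.equivOfEq (laurentBaseChange_heckeField_eq L M p)).symm.toAlgHom.comp
    (alFieldHom L M hV hM hp hpM)).comp
    (IntermediateField.equivOfEq (laurentBaseChange_heckeField_eq L M p)).toAlgHom

theorem alHom_hgenBC (hV : VFunStatement) (hM : 3 ≤ M) (hp : p.Prime) (hpM : ¬ p ∣ M)
    (k : HIdx M) :
    alHom L M hV hM hp hpM (hgenBC L M p k) = hgenBC L M p (hPerm M (es1Unit M hp hpM) k) := by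
  have h1 : (IntermediateField.equivOfEq (laurentBaseChange_heckeField_eq L M p))
      (hgenBC L M p k) = hgenK L M p k := rfl
  show (IntermediateField.equivOfEq (laurentBaseChange_heckeField_eq L M p)).symm
    (alFieldHom L M hV hM hp hpM
      ((IntermediateField.equivOfEq (laurentBaseChange_heckeField_eq L M p))
        (hgenBC L M p k))) = _
  rw [h1, alFieldHom_hgenK]
  rfl

theorem alphaGen_genBC (i : GenIdx M) :
    alphaGen L (F1 M) p (genBC L M i) = hgenBC L M p (Sum.inl i) :=
  Subtype.ext rfl

theorem betaGen_genBC (i : GenIdx M) :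
    betaGen L (F1 M) p (genBC L M i) = hgenBC L M p (Sum.inr i) := by
  apply Subtype.ext
  show qExpand L p (coeffEmb L (gensQ M i)) = coeffEmb L (qExpand ℚ p (gensQ M i))
  exact (es1_coeffEmb_qExpand L p (gensQ M i)).symm

/-- The value of the chosen diamond automorphisms on the generators. -/
theorem diamondAut_genBC (hD : DiamondExistsStatement) (hM : 3 ≤ M) (u : (ZMod M)ˣ)
    (i : GenIdx M) :
    diamondAut L M u (genBC L M i) = genBC L M (genPerm M u i) := by
  have h : Nonempty (DiamondData L M) := hD L M hM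
  have hdef : diamondAut L M = h.some.aut := by
    rw [diamondAut, dif_pos h]
  rw [hdef]
  cases i with
  | inl d =>
    have := neZero_of_dvd_level M d.2
    exact h.some.aut_full u (genBC L M (Sum.inl d))
      (coeffEmb_mem_laurentBaseChange L (jqd_mem_full M d.2))
  | inr a => exact h.some.aut_v u a

/-- **ES1-ES-AL.** -/
theorem alHom_alpha (hV : VFunStatement) (hM : 3 ≤ M) (hp : p.Prime) (hpM : ¬ p ∣ M) :
    (alHom L M hV hM hp hpM).comp (alphaGen L (F1 M) p) = betaGen L (F1 M) p := by
  apply IntermediateField.algHom_ext_of_eq_adjoin L (laurentBaseChange_eq_genField L M)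
  rintro x ⟨i, rfl⟩
  show alHom L M hV hM hp hpM (alphaGen L (F1 M) p (genBC L M i))
    = betaGen L (F1 M) p (genBC L M i)
  rw [alphaGen_genBC, alHom_hgenBC, betaGen_genBC]
  rfl

theorem alHom_beta (hV : VFunStatement) (hD : DiamondExistsStatement) (hM : 3 ≤ M)
    (hp : p.Prime) (hpM : ¬ p ∣ M) :
    (alHom L M hV hM hp hpM).comp (betaGen L (F1 M) p)
      = (alphaGen L (F1 M) p).comp
          (diamondAut L M (es1Unit M hp hpM) :
            laurentBaseChange L (F1 M) →ₐ[L] laurentBaseChange L (F1 M)) := by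
  apply IntermediateField.algHom_ext_of_eq_adjoin L (laurentBaseChange_eq_genField L M)
  rintro x ⟨i, rfl⟩
  show alHom L M hV hM hp hpM (betaGen L (F1 M) p (genBC L M i))
    = alphaGen L (F1 M) p (diamondAut L M (es1Unit M hp hpM) (genBC L M i))
  rw [betaGen_genBC, alHom_hgenBC, diamondAut_genBC L M hD hM, alphaGen_genBC]
  rfl

end Fermat.Agent.H34.ES1AL

namespace Fermat.Agent.H34

open Fermat.Agent.H29.ES1 Fermat.Agent.H16 ModularCurve

/-- **ES1-ES-AL**: the Atkin–Lehner homomorphism of the Hecke field of `X₁(M)` at `p ∤ M`,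
with `W ∘ α = β` and `W ∘ β = α ∘ aut p`. -/
theorem atkinLehner1 (hV : VFunStatement) (hD : DiamondExistsStatement) :
    AtkinLehner1Statement := by
  intro M _ hM5 p _ hp hpM
  have hM : 3 ≤ M := by omega
  refine ⟨ES1AL.alHom (AlgebraicClosure ℚ) M hV hM hp hpM, ?_, ?_⟩
  · intro x
    exact AlgHom.congr_fun (ES1AL.alHom_alpha (AlgebraicClosure ℚ) M hV hM hp hpM) x
  · intro x
    exact AlgHom.congr_fun (ES1AL.alHom_beta (AlgebraicClosure ℚ) M hV hD hM hp hpM) x

end Fermat.Agent.H34

end
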